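/-
helper77, P-SS2 row 1069 (SS2-J4a1 DEG), over `ℂ`, every `q ≠ 0`:

* `degAlphaIndex` : `finrankAlong ℂ (heckeAlphaBar ℂ N q) = (incl N q).range.index`
                    (the degree of `α` is the index of `Γ₀(N q)` in `Γ₀(N)`);
* `degBetaEqAlpha`: `finrankAlong ℂ (heckeBetaBar ℂ N q) = finrankAlong ℂ (heckeAlphaBar ℂ N q)`.

Everything is on helper27's `Fermat.Agent.H27.SS2.DegB`.
-/
import Fermat.Agent.H27.SS2.DegB
import Fermat.Agent.H63.LR.Maps

set_option autoImplicit false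
set_option linter.style.haveILetI false
set_option linter.unusedSectionVars false
set_option linter.unusedVariables false

noncomputable section

open AlgebraicCurve ModularCurve IntermediateField
open scoped MatrixGroups

namespace Fermat.Agent.H77

open Fermat.Agent.H23.EsA Fermat.Agent.H27.SS2 CongruenceSubgroup

/-- `Γ₀(N q) ≤ Γ₀(N)`. -/
lemma dgi_gamma0_le (N q : ℕ) : Gamma0 (N * q) ≤ Gamma0 N := by
  intro γ hγ
  rw [Gamma0_mem] at hγ ⊢
  have h1 : ((N * q : ℕ) : ℤ) ∣ (γ : Matrix (Fin 2) (Fin 2) ℤ) 1 0 :=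
    (ZMod.intCast_zmod_eq_zero_iff_dvd _ _).mp hγ
  exact (ZMod.intCast_zmod_eq_zero_iff_dvd _ _).mpr
    (dvd_trans (by push_cast; exact Dvd.intro _ rfl) h1)

/-- The index of the range of the inclusion `Γ₀(N q) → Γ₀(N)` is the relative index. -/
lemma dgi_index_range_incl (N q : ℕ) :
    (Fermat.Agent.H63.LR.incl N q).range.index = (Gamma0 (N * q)).relIndex (Gamma0 N) := by
  have h : (Fermat.Agent.H63.LR.incl N q).range = (Gamma0 (N * q)).subgroupOf (Gamma0 N) :=
    Subgroup.inclusion_range (dgi_gamma0_le N q)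
  rw [h]
  rfl

/-- `ψ(N) · [Γ₀(N) : Γ₀(N q)] = ψ(N q)`. -/
lemma dgi_psi_mul_relIndex (N q : ℕ) [NeZero N] [NeZero q] [NeZero (N * q)] :
    dedekindPsi N * (Gamma0 (N * q)).relIndex (Gamma0 N) = dedekindPsi (N * q) := by
  have h := Subgroup.relIndex_mul_index (dgi_gamma0_le N q)
  rw [Fermat.Agent.H57.index_Gamma0 N, Fermat.Agent.H57.index_Gamma0 (N * q)] at h
  rw [mul_comm]
  exact h

/-- `[FC (N q) : FC N] = [Γ₀(N) : Γ₀(N q)]`. -/
theorem dgi_relfinrank_eq_relIndex (N q : ℕ) [NeZero N] [NeZero q] [NeZero (N * q)] :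
    IntermediateField.relfinrank (FC N) (FC (N * q)) = (Gamma0 (N * q)).relIndex (Gamma0 N) := by
  have h1 := relfinrank_fc_mul (N := N) (N' := N * q) (dvd_mul_right N q)
  have h2 := dgi_psi_mul_relIndex N q
  exact Nat.eq_of_mul_eq_mul_left (dedekindPsi_pos' N) (h1.trans h2.symm)

/-- **DEG-α = index** (all `q ≠ 0`). -/
theorem degAlphaIndex (N q : ℕ) [NeZero N] [NeZero q] :
    finrankAlong ℂ (heckeAlphaBar ℂ N q) = (Fermat.Agent.H63.LR.incl N q).range.index := by
  haveI : NeZero (N * q) := ⟨Nat.mul_ne_zero (NeZero.ne N) (NeZero.ne q)⟩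
  have hα : heckeAlphaBar ℂ N q = IntermediateField.inclusion (fc_le (dvd_mul_right N q)) := rfl
  rw [hα, Fermat.Agent.H65.finrankAlong_inclusion_eq_relfinrank, dgi_index_range_incl]
  exact dgi_relfinrank_eq_relIndex N q

/-- **DEG-β = DEG-α** (all `q ≠ 0`). -/
theorem degBetaEqAlpha (L q : ℕ) [NeZero L] [NeZero q] :
    finrankAlong ℂ (heckeBetaBar ℂ L q) = finrankAlong ℂ (heckeAlphaBar ℂ L q) := by
  haveI : NeZero (L * q) := ⟨Nat.mul_ne_zero (NeZero.ne L) (NeZero.ne q)⟩
  haveI : NeZero (1 * q) := ⟨by rw [one_mul]; exact NeZero.ne q⟩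
  have h1L : FC 1 ≤ FC L := fc_le (one_dvd L)
  have hqLq : FC (1 * q) ≤ FC (L * q) := fc_le (Nat.mul_dvd_mul_right (one_dvd L) q)
  have h1q : FC 1 ≤ FC (1 * q) := fc_le (dvd_mul_right 1 q)
  have hLLq : FC L ≤ FC (L * q) := fc_le (dvd_mul_right L q)
  -- the commutative square
  have hsq : (heckeBetaBar ℂ L q).comp (IntermediateField.inclusion h1L)
      = (IntermediateField.inclusion hqLq).comp (heckeBetaBar ℂ 1 q) := by
    apply AlgHom.ext
    intro x
    apply Subtype.ext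
    rw [AlgHom.comp_apply, AlgHom.comp_apply, coe_heckeBetaBar,
      IntermediateField.coe_inclusion, IntermediateField.coe_inclusion, coe_heckeBetaBar]
  have e1 := finrankAlong_comp (IntermediateField.inclusion h1L) (heckeBetaBar ℂ L q)
  have e2 := finrankAlong_comp (heckeBetaBar ℂ 1 q) (IntermediateField.inclusion hqLq)
  rw [hsq, e2, finrankAlong_beta_one q] at e1
  have hα1 : heckeAlphaBar ℂ 1 q = IntermediateField.inclusion h1q := rfl
  have hαL : heckeAlphaBar ℂ L q = IntermediateField.inclusion hLLq := rfl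
  rw [hα1, Fermat.Agent.H65.finrankAlong_inclusion_eq_relfinrank,
    Fermat.Agent.H65.finrankAlong_inclusion_eq_relfinrank,
    Fermat.Agent.H65.finrankAlong_inclusion_eq_relfinrank,
    IntermediateField.relfinrank_mul_relfinrank h1q hqLq,
    ← IntermediateField.relfinrank_mul_relfinrank h1L hLLq] at e1
  rw [hαL, Fermat.Agent.H65.finrankAlong_inclusion_eq_relfinrank]
  exact (Nat.eq_of_mul_eq_mul_left
    (Nat.pos_of_ne_zero (relfinrank_fc_ne_zero (one_dvd L))) e1).symm

end Fermat.Agent.H77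

end
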