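/-
helper77, P-SS2 row 1069 (SS2-J4a1 DEG): the two statements of helper26's
`Fermat.Agent.H26.KumNew.DegDefs` (proofs in `Fermat.Agent.H77.SS2J.DegIdx`).
-/
import Fermat.Agent.H77.SS2J.DegIdx
import Fermat.Agent.H26.KumNew.DegDefs

set_option autoImplicit false

namespace Fermat.Agent.H77

/-- **(J4a1) DEG-ALPHA-IDX.** -/
theorem degAlphaIndexStatement : Fermat.Agent.H26.KumNew.DegAlphaIndexStatement :=
  fun N q _ _ _ => degAlphaIndex N q

/-- **(J4a2) DEG-BETA.** -/
theorem degBetaEqAlphaStatement : Fermat.Agent.H26.KumNew.DegBetaEqAlphaStatement :=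
  fun N q _ _ _ => degBetaEqAlpha N q

end Fermat.Agent.H77
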