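/-
helper77, P-SS2 row 1011 (SS2-J1 COR-REW), core: for `q ∣ L` the two families

  `corFamA L q k = [[1, 0], [L k, 1]]`,   `corFamB q k = [[1, k], [0, q]]`   (`k : ZMod q`)

are two-group rewriting data (`Rew2`) from `Γ₀(L q)` to `Γ₀(L)` inside `GL₂(ℝ)`.
-/
import Fermat.Agent.H63.SS2.Maps
import Fermat.Agent.H21.Coh.Gamma0

set_option autoImplicit false
set_option linter.unusedSectionVars false
set_option linter.unusedVariables false

open CongruenceSubgroup Matrix.SpecialLinearGroup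
open scoped MatrixGroups
open P2MW.S_ModularForm_heckeT_slash_eq_self_of_mem_Gamma0.ModularForm.HeckeSlashInvariance

namespace Fermat.Agent.H77

open Fermat.Agent.H63.SS2 Fermat.Agent.H21

/-- Membership in `Γ₀(N)` as a divisibility. -/
lemma crw_mem_gamma0_iff (N : ℕ) (g : SL(2, ℤ)) : g ∈ Gamma0 N ↔ (N : ℤ) ∣ g 1 0 := by
  rw [Gamma0_mem, ZMod.intCast_zmod_eq_zero_iff_dvd]

lemma crw_lowerUni_inv (m : ℤ) : (lowerUni m)⁻¹ = lowerUni (-m) := by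
  apply Subtype.ext
  rw [Matrix.SpecialLinearGroup.coe_inv, lowerUni_coe, lowerUni_coe, Matrix.adjugate_fin_two_of,
    neg_zero]

/-- The lower left entry of `[[1,0],[m,1]] g [[1,0],[m',1]]⁻¹`. -/
lemma crw_conj_apply_one_zero (m m' : ℤ) (g : SL(2, ℤ)) :
    (lowerUni m * g * (lowerUni m')⁻¹ : SL(2, ℤ)) 1 0
      = m * g 0 0 + g 1 0 - m' * (m * g 0 1 + g 1 1) := by
  rw [crw_lowerUni_inv]
  simp only [Matrix.SpecialLinearGroup.coe_mul, lowerUni_coe, Matrix.mul_apply,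
    Fin.sum_univ_two, Matrix.of_apply, Matrix.cons_val', Matrix.cons_val_zero,
    Matrix.cons_val_one, Matrix.cons_val_fin_one]
  ring

/-- The family `corFamB q k = [[1, k], [0, q]]` is rewriting data from `Γ₀(L q)` to `Γ₀(L)`. -/
theorem corRewB (L q : ℕ) [NeZero q] (hqL : q ∣ L) :
    Rew2 (gamma0ToGL (L * q)) (gamma0ToGL L) (corFamB q) where
  inj := gamma0ToGL_injective (L * q)
  rw γ x := by
    have hcL : (L : ℤ) ∣ (γ : SL(2, ℤ)) 1 0 := (crw_mem_gamma0_iff L _).1 γ.2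
    have hc : (q : ℤ) ∣ (γ : SL(2, ℤ)) 1 0 := (Int.natCast_dvd_natCast.mpr hqL).trans hcL
    obtain ⟨κ, hκ, hmul⟩ := heckeMatrix_mul_of_dvd (γ : SL(2, ℤ)) hc x
    refine ⟨_, ⟨κ, ?_⟩, hmul⟩
    rw [crw_mem_gamma0_iff, hκ]
    push_cast
    rw [mul_comm (L : ℤ)]
    exact mul_dvd_mul (dvd_refl _) hcL
  sep x y κ e := heckeMatrix_sep x y (κ : SL(2, ℤ)) e

/-- The family `corFamA L q k = [[1, 0], [L k, 1]]` is rewriting data from `Γ₀(L q)` to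
`Γ₀(L)` (`q ∣ L`, `L ≠ 0`). -/
theorem corRewA (L q : ℕ) [NeZero L] [NeZero q] (hqL : q ∣ L) :
    Rew2 (gamma0ToGL (L * q)) (gamma0ToGL L) (corFamA L q) where
  inj := gamma0ToGL_injective (L * q)
  rw γ k := by
    have hcL : (L : ℤ) ∣ (γ : SL(2, ℤ)) 1 0 := (crw_mem_gamma0_iff L _).1 γ.2
    have hc0 : (((γ : SL(2, ℤ)) 1 0 : ℤ) : ZMod q) = 0 :=
      (ZMod.intCast_zmod_eq_zero_iff_dvd _ _).mpr ((Int.natCast_dvd_natCast.mpr hqL).trans hcL)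
    have had := unit_of_apply_one_zero_eq_zero (p := q) (γ : SL(2, ℤ)) hc0
    obtain ⟨c, hc⟩ := hcL
    have hL : ((L : ℕ) : ZMod q) = 0 := (ZMod.natCast_eq_zero_iff _ _).2 hqL
    obtain ⟨k', hk'⟩ : ∃ k' : ZMod q,
        k' = (k * (((γ : SL(2, ℤ)) 0 0 : ℤ) : ZMod q) + (c : ZMod q))
          * (((γ : SL(2, ℤ)) 0 0 : ℤ) : ZMod q) := ⟨_, rfl⟩
    have hq : (q : ℤ) ∣ (k.val : ℤ) * (γ : SL(2, ℤ)) 0 0 + c
        - (k'.val : ℤ) * ((L : ℤ) * (k.val : ℤ) * (γ : SL(2, ℤ)) 0 1 + (γ : SL(2, ℤ)) 1 1) := by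
      rw [← ZMod.intCast_zmod_eq_zero_iff_dvd]
      push_cast
      rw [ZMod.natCast_zmod_val, ZMod.natCast_zmod_val, hL, hk']
      linear_combination
        (-(k * (((γ : SL(2, ℤ)) 0 0 : ℤ) : ZMod q) + (c : ZMod q))) * had
    refine ⟨k', ⟨lowerUni ((L : ℤ) * (k.val : ℤ)) * (γ : SL(2, ℤ))
      * (lowerUni ((L : ℤ) * (k'.val : ℤ)))⁻¹, ?_⟩, ?_⟩
    · rw [crw_mem_gamma0_iff, crw_conj_apply_one_zero, hc]
      obtain ⟨e, he⟩ := hq
      refine ⟨e, ?_⟩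
      push_cast
      linear_combination (L : ℤ) * he
    · show mapGL ℝ (lowerUni ((L : ℤ) * (k.val : ℤ))) * mapGL ℝ (γ : SL(2, ℤ))
        = mapGL ℝ (lowerUni ((L : ℤ) * (k.val : ℤ)) * (γ : SL(2, ℤ))
            * (lowerUni ((L : ℤ) * (k'.val : ℤ)))⁻¹) * mapGL ℝ (lowerUni ((L : ℤ) * (k'.val : ℤ)))
      rw [← map_mul, ← map_mul, inv_mul_cancel_right]
  sep x y κ e := by
    have e1 : mapGL ℝ (lowerUni ((L : ℤ) * (x.val : ℤ)))
        = mapGL ℝ ((κ : SL(2, ℤ)) * lowerUni ((L : ℤ) * (y.val : ℤ))) := by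
      rw [map_mul]; exact e
    have e2 := mapGL_injective (R := ℤ) (S := ℝ) e1
    have e3 : (κ : SL(2, ℤ)) = lowerUni ((L : ℤ) * (x.val : ℤ)) * 1
        * (lowerUni ((L : ℤ) * (y.val : ℤ)))⁻¹ := by
      rw [mul_one, e2, mul_inv_cancel_right]
    have h1 : ((L * q : ℕ) : ℤ) ∣ (κ : SL(2, ℤ)) 1 0 := (crw_mem_gamma0_iff _ _).1 κ.2
    rw [e3, crw_conj_apply_one_zero] at h1
    simp only [Matrix.SpecialLinearGroup.coe_one, Matrix.one_apply_eq, mul_one,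
      Matrix.one_apply_ne, ne_eq, one_ne_zero, not_false_eq_true, zero_ne_one, add_zero,
      mul_zero, zero_add] at h1
    have hL0 : (L : ℤ) ≠ 0 := by exact_mod_cast NeZero.ne L
    have h2 : (L : ℤ) * (q : ℤ) ∣ (L : ℤ) * ((x.val : ℤ) - (y.val : ℤ)) := by
      have : (L : ℤ) * ((x.val : ℤ) - (y.val : ℤ))
          = (L : ℤ) * (x.val : ℤ) - (L : ℤ) * (y.val : ℤ) := by ring
      rw [this]
      exact_mod_cast h1
    have h3 : (q : ℤ) ∣ (x.val : ℤ) - (y.val : ℤ) := (mul_dvd_mul_iff_left hL0).1 h2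
    have h4 := (ZMod.intCast_zmod_eq_zero_iff_dvd _ q).2 h3
    push_cast at h4
    rw [ZMod.natCast_zmod_val, ZMod.natCast_zmod_val] at h4
    exact sub_eq_zero.1 h4

end Fermat.Agent.H77
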