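/-
helper77, P-SS2 row 1011 (SS2-J1 COR-REW):

  `corRew : Fermat.Agent.H63.SS2.CorRewStatement`

for `q` prime, `q ∣ L`, the two families `corFamA L q`, `corFamB q` are two-group rewriting data
from `Γ₀(L q)` to `Γ₀(L)` (proofs in `CorRewCore`; primality of `q` is not needed).
-/
import Fermat.Agent.H77.SS2J.CorRewCore
import Fermat.Agent.H63.SS2.Interfaces

set_option autoImplicit false

namespace Fermat.Agent.H77

/-- **J1 (COR-REW).** -/
theorem corRew : Fermat.Agent.H63.SS2.CorRewStatement := by
  intro L q _ _ _ hqL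
  exact ⟨corRewA L q hqL, corRewB L q hqL⟩

end Fermat.Agent.H77
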